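import Fermat.Agent.Period.Twist

/-!
# Dilation of cusp forms: from `Γ₀(M)` to `Γ₀(Mq)`
-/

set_option autoImplicit false

noncomputable section

open UpperHalfPlane ModularForm CongruenceSubgroup Filter
open scoped MatrixGroups Manifold Topology

namespace FA.LTInt

open FA.Period

variable {M q : ℕ} {w : ℤ} {f : ℍ → ℂ}

theorem forms_le_mul (M q : ℕ) (w : ℤ) : cuspForms M w ≤ cuspForms (M * q) w := fun _ hf =>
  ⟨⟨fun γ hγ => hf.1.1 γ (by
      rw [Gamma0_mem, ZMod.intCast_zmod_eq_zero_iff_dvd] at hγ ⊢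
      exact dvd_trans (by exact_mod_cast dvd_mul_right M q) hγ), hf.1.2⟩, hf.2⟩

/-- The dilation `τ ↦ f (qτ)`, as a slash. -/
def dilate (q : ℕ) (w : ℤ) (f : ℍ → ℂ) : ℍ → ℂ := f ∣[w] heckeDiagMatrix q

theorem dilate_slash_eq_self (hq : q ≠ 0) (hf : ∀ γ ∈ Gamma0 M, f ∣[w] γ = f) {γ : SL(2, ℤ)}
    (hγ : γ ∈ Gamma0 (M * q)) : dilate q w f ∣[w] γ = dilate q w f := by
  obtain ⟨c', hc'⟩ : ((M * q : ℕ) : ℤ) ∣ γ.1 1 0 := by
    rw [← ZMod.intCast_zmod_eq_zero_iff_dvd]; exact Gamma0_mem.mp hγ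
  have hdet : γ.1 0 0 * γ.1 1 1 - γ.1 0 1 * γ.1 1 0 = 1 := by
    rw [← Matrix.det_fin_two]; exact γ.2
  push_cast at hc'
  let γ' : SL(2, ℤ) := ⟨!![γ.1 0 0, q * γ.1 0 1; M * c', γ.1 1 1], by
    rw [Matrix.det_fin_two_of]; rw [hc'] at hdet; linear_combination hdet⟩
  have hγ' : γ' ∈ Gamma0 M := by
    rw [Gamma0_mem]
    simp [γ']
  have h : heckeDiagMatrix q * (γ : GL (Fin 2) ℝ) = (γ' : GL (Fin 2) ℝ) * heckeDiagMatrix q := by
    apply Units.ext
    have hcR : (γ.1 1 0 : ℝ) = (M : ℝ) * (q : ℝ) * (c' : ℝ) := by exact_mod_cast hc'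
    rw [Units.val_mul, Units.val_mul, val_heckeDiagMatrix hq, val_coe_GL, val_coe_GL]
    ext i j; fin_cases i <;> fin_cases j <;>
      simp [γ', Matrix.mul_apply, Fin.sum_univ_two, hcR] <;> ring
  rw [SL_slash, dilate, ← SlashAction.slash_mul, h, SlashAction.slash_mul]
  exact congrArg (fun g => g ∣[w] heckeDiagMatrix q) (hf γ' hγ')

theorem dilate_mem_cuspForms (hq : q ≠ 0) (hf : f ∈ cuspForms M w) :
    dilate q w f ∈ cuspForms (M * q) w := by
  have hz : ∀ δ : SL(2, ℤ), IsZeroAtImInfty (dilate q w f ∣[w] δ) := fun δ => by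
    obtain ⟨γ, a, b, d, had, -, -, hfac, -⟩ := exists_factor hq δ
    rw [SL_slash, dilate, ← SlashAction.slash_mul, hfac, SlashAction.slash_mul]
    exact IsZeroAtImInfty.slash w (upperTriangularGL_apply_one_zero _ _ _ had) (hf.2 γ)
  exact ⟨⟨fun γ hγ => dilate_slash_eq_self hq hf.1.1 hγ, hf.1.2.1.slash w _,
    fun δ => (hz δ).isBoundedAtImInfty⟩, hz⟩

theorem qExp_dilate (hq : q ≠ 0) (hf : f ∈ cuspForms M w) (n : ℕ) :
    (qExp (dilate q w f)).coeff n =
      (q : ℂ) ^ (w - 1) * (if q ∣ n then (qExp f).coeff (n / q) else 0) := by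
  have hQ := isQFun_of_mem hf.1
  have hF := isQFun_of_mem (dilate_mem_cuspForms hq hf).1
  refine (hF.coeff_unique (c := fun n => (q : ℂ) ^ (w - 1) *
    (if q ∣ n then (qExp f).coeff (n / q) else 0)) (fun τ => ?_) n).symm
  have hs := hasSum_qExpansion one_pos hQ.periodic hQ.mdiff hQ.bdd (heckeDiagMatrix q • τ)
  have hqq : Function.Periodic.qParam 1 (heckeDiagMatrix q • τ : ℍ)
      = Function.Periodic.qParam 1 τ ^ q := by
    rw [Function.Periodic.qParam, Function.Periodic.qParam, coe_heckeDiagMatrix_smul hq,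
      ← Complex.exp_nat_mul]
    congr 1
    ring
  rw [dilate, slash_heckeDiagMatrix_apply w hq]
  simp only [smul_eq_mul, mul_assoc]
  refine HasSum.mul_left _ ?_
  have hinj : Function.Injective fun m : ℕ => q * m := mul_right_injective₀ hq
  rw [← hinj.hasSum_iff fun m hm => ?_]
  · refine HasSum.congr_fun hs fun m => ?_
    simp [hqq, Nat.mul_div_cancel_left _ (Nat.pos_of_ne_zero hq), pow_mul]
  · rw [if_neg fun ⟨l, hl⟩ => hm ⟨l, hl.symm⟩, zero_mul]

end FA.LTInt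

end
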