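import Fermat.Agent.Root.Integral.Raise
import Fermat.Agent.JTorsion.Eigen

/-!
# The depletion of an eigenform at the primes of its level
-/

set_option autoImplicit false

noncomputable section

open UpperHalfPlane ModularForm CongruenceSubgroup
open scoped MatrixGroups

namespace FA.LTInt

open FA.Period

variable {L : ℕ} [NeZero L]

/-- The coefficients of the depletion at the primes in `s`. -/
def depl (s : Finset ℕ) (c : ℕ → ℂ) (n : ℕ) : ℂ := if ∀ q ∈ s, ¬ q ∣ n then c n else 0

theorem qCoeff_prime_mul_of_dvd {f : CuspForm (Gamma0 L) 2} (hf : f.IsNormalizedEigenform) {q : ℕ}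
    (hq : q.Prime) (hqL : q ∣ L) (m : ℕ) :
    ModularFormClass.qCoeff f (q * m) = ModularFormClass.qCoeff f q * ModularFormClass.qCoeff f m := by
  have h := FA.JTorsion.qCoeff_rec hf hq m
  simpa [FA.Deform.cor, hqL, FA.Deform.qLin_apply, mul_comm m q] using h

theorem exists_depleted {f : CuspForm (Gamma0 L) 2} (hf : f.IsNormalizedEigenform) (s : Finset ℕ)
    (hs : ∀ q ∈ s, q.Prime ∧ q ∣ L) :
    ∃ g ∈ cuspForms (L * ∏ q ∈ s, q) 2, ∀ n,
      (qExp g).coeff n = depl s (fun n => ModularFormClass.qCoeff f n) n := by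
  classical
  induction s using Finset.induction_on with
  | empty =>
    refine ⟨⇑f, by simpa using coe_mem_cuspForms f, fun n => ?_⟩
    simp [depl, ModularFormClass.qCoeff]
  | @insert q s hqs ih =>
    obtain ⟨g, hg, hgc⟩ := ih fun r hr => hs r (Finset.mem_insert_of_mem hr)
    obtain ⟨hq, hqL⟩ := hs q (Finset.mem_insert_self q s)
    set P := L * ∏ r ∈ s, r with hP
    let c : ℂ := ModularFormClass.qCoeff f q / (q : ℂ) ^ ((2 : ℤ) - 1)
    have hd : dilate q 2 g ∈ cuspForms (P * q) 2 := dilate_mem_cuspForms hq.ne_zero hg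
    have hlev : L * ∏ r ∈ insert q s, r = P * q := by
      rw [Finset.prod_insert hqs, hP]; ring
    refine ⟨g - c • dilate q 2 g, hlev ▸ sub_mem (forms_le_mul P q 2 hg)
      (Submodule.smul_mem _ c hd), fun n => ?_⟩
    have hdQ := isQFun_of_mem hd.1
    rw [(isQFun_of_mem hg.1).qExp_sub (hdQ.smul c), hdQ.qExp_smul c, map_sub,
      PowerSeries.coeff_smul, qExp_dilate hq.ne_zero hg, smul_eq_mul, ← mul_assoc]
    have hc : c * (q : ℂ) ^ ((2 : ℤ) - 1) = ModularFormClass.qCoeff f q :=
      div_mul_cancel₀ _ (zpow_ne_zero _ (Nat.cast_ne_zero.2 hq.ne_zero))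
    rw [hc, hgc n]
    by_cases hqn : q ∣ n
    · obtain ⟨m, rfl⟩ := hqn
      rw [if_pos (dvd_mul_right q m), Nat.mul_div_cancel_left _ hq.pos, hgc m]
      have hiff : (∀ r ∈ s, ¬ r ∣ q * m) ↔ ∀ r ∈ s, ¬ r ∣ m := by
        refine ⟨fun h r hr hd => h r hr (hd.mul_left q), fun h r hr hd => ?_⟩
        have hr' := (hs r (Finset.mem_insert_of_mem hr)).1
        rcases hr'.dvd_mul.1 hd with h1 | h1
        · exact hqs (((Nat.prime_dvd_prime_iff_eq hr' hq).1 h1) ▸ hr)
        · exact h r hr h1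
      have hno : ¬ ∀ r ∈ insert q s, ¬ r ∣ q * m := fun h =>
        h q (Finset.mem_insert_self q s) (dvd_mul_right q m)
      simp only [depl, hiff, if_neg hno]
      split_ifs with h
      · rw [qCoeff_prime_mul_of_dvd hf hq hqL, sub_self]
      · simp
    · have hiff : (∀ r ∈ insert q s, ¬ r ∣ n) ↔ ∀ r ∈ s, ¬ r ∣ n := by
        simp [hqn]
      rw [if_neg hqn, mul_zero, sub_zero]
      simp only [depl, hiff]

end FA.LTInt

end
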