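import Mathlib
import Fermat.Prelude.Def_FormalHecke_Eigensystem

/-!
# The formal eigensystem with given prime values
-/

set_option autoImplicit false

namespace FA.LTInt

open FormalHecke

variable {R : Type*} [CommRing R]

/-- The values at the powers of a prime. -/
def powVal (x e : R) : ℕ → R
  | 0 => 1
  | 1 => x
  | n + 2 => x * powVal x e (n + 1) - e * powVal x e n

/-- The multiplicative function with prime values `x` satisfying the Hecke recursion for `e`. -/
def formalSeq (x e : ℕ → R) (n : ℕ) : R :=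
  if n = 0 then 0 else n.factorization.prod fun p k => powVal (x p) (e p) k

theorem formalSeq_zero (x e : ℕ → R) : formalSeq x e 0 = 0 := if_pos rfl

theorem formalSeq_one (x e : ℕ → R) : formalSeq x e 1 = 1 := by
  simp [formalSeq, Finsupp.prod]

theorem formalSeq_prime_pow (x e : ℕ → R) {p : ℕ} (hp : p.Prime) (k : ℕ) :
    formalSeq x e (p ^ k) = powVal (x p) (e p) k := by
  rw [formalSeq, if_neg (pow_ne_zero k hp.ne_zero), hp.factorization_pow,
    Finsupp.prod_single_index (by rw [powVal])]

theorem formalSeq_mul (x e : ℕ → R) {m n : ℕ} (h : m.Coprime n) :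
    formalSeq x e (m * n) = formalSeq x e m * formalSeq x e n := by
  rcases Nat.eq_zero_or_pos m with rfl | hm
  · simp [formalSeq_zero]
  rcases Nat.eq_zero_or_pos n with rfl | hn
  · simp [formalSeq_zero]
  simp only [formalSeq, if_neg hm.ne', if_neg hn.ne', if_neg (Nat.mul_ne_zero hm.ne' hn.ne')]
  rw [Nat.factorization_mul_of_coprime h, Finsupp.prod_add_index_of_disjoint]
  simpa [Nat.support_factorization] using h.disjoint_primeFactors

theorem isEigensystem_formalSeq (x e : ℕ → R) : IsEigensystem e (formalSeq x e) := by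
  refine ⟨formalSeq_one x e, fun ℓ hℓ n => ?_⟩
  have hx : formalSeq x e ℓ = x ℓ := by
    simpa [powVal] using formalSeq_prime_pow x e hℓ 1
  rcases Nat.eq_zero_or_pos n with rfl | hn
  · simp [formalSeq_zero]
  obtain ⟨r, m, hm, rfl⟩ := Nat.exists_eq_pow_mul_and_not_dvd hn.ne' ℓ hℓ.ne_one
  have hmul : ∀ s : ℕ, formalSeq x e (ℓ ^ s * m) = powVal (x ℓ) (e ℓ) s * formalSeq x e m :=
    fun s => by
      rw [formalSeq_mul x e (((hℓ.coprime_iff_not_dvd).2 hm).pow_left s),
        formalSeq_prime_pow x e hℓ]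
  rw [show ℓ * (ℓ ^ r * m) = ℓ ^ (r + 1) * m by ring, hx, hmul, hmul]
  rcases r with _ | r
  · rw [if_neg (by simpa using hm)]
    simp [powVal]
  · rw [if_pos ((dvd_pow_self ℓ (Nat.succ_ne_zero r)).mul_right m),
      show ℓ ^ (r + 1) * m / ℓ = ℓ ^ r * m by
        rw [pow_succ, mul_comm (ℓ ^ r) ℓ, mul_assoc, Nat.mul_div_cancel_left _ hℓ.pos], hmul,
      powVal]
    ring

theorem map_powVal {S : Type*} [CommRing S] (φ : R →+* S) (x e : R) :
    ∀ k, φ (powVal x e k) = powVal (φ x) (φ e) k
  | 0 => by simp [powVal]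
  | 1 => by simp [powVal]
  | n + 2 => by simp [powVal, map_powVal φ x e (n + 1), map_powVal φ x e n]

theorem map_formalSeq {S : Type*} [CommRing S] (φ : R →+* S) (x e : ℕ → R) (n : ℕ) :
    φ (formalSeq x e n) = formalSeq (fun p => φ (x p)) (fun p => φ (e p)) n := by
  unfold formalSeq
  split_ifs
  · exact map_zero φ
  · rw [map_finsuppProd]
    simp only [map_powVal]

/-- An eigensystem vanishing at `0` is determined by its values at the primes. -/
theorem eigensystem_unique {e a b : ℕ → R} (ha : IsEigensystem e a) (hb : IsEigensystem e b)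
    (ha0 : a 0 = 0) (hb0 : b 0 = 0) (h : ∀ p : ℕ, p.Prime → a p = b p) : a = b := by
  funext n
  induction n using Nat.strong_induction_on with
  | _ n ih =>
    rcases Nat.eq_zero_or_pos n with rfl | hn
    · rw [ha0, hb0]
    rcases eq_or_ne n 1 with rfl | hne
    · rw [ha.1, hb.1]
    obtain ⟨p, hp, k, rfl⟩ := Nat.exists_prime_and_dvd hne
    have hk : k < p * k := lt_mul_of_one_lt_left (Nat.pos_of_mul_pos_left hn) hp.one_lt
    have e1 := ha.2 p hp k
    have e2 := hb.2 p hp k
    rw [h p hp, ih k hk, ih (k / p) ((Nat.div_le_self k p).trans_lt hk), ← e2] at e1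
    exact add_right_cancel e1

end FA.LTInt
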