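import Fermat.Agent.Root.Semistable.Modular
import Fermat.Agent.Root.Integral.Eigen
import Fermat.Agent.Root.Integral.Deplete
import Fermat.Agent.Period.Integral
import Fermat.Agent.S49
import Fermat.Prelude.Def_CuspForm_IntegralLattice

/-!
# The formal weight one system of a semistable curve is realised in weight two
-/

set_option autoImplicit false

noncomputable section

open WeierstrassCurve CongruenceSubgroup EisensteinWeightOne ModularFormClass

namespace FA.LTInt

open FA.Period FormalHecke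

theorem hasIntegralBasis (N : ℕ) [NeZero N] : CuspForm.HasIntegralBasis N := by
  refine top_unique ((FA.Period.hasIntegralStructure N 2).ge.trans (Submodule.span_le.2 ?_))
  intro g hg
  refine Submodule.span_le_restrictScalars ℤ ℂ (CuspForm.qIntegralSet N) ?_
  refine Submodule.span_mono (fun h hh => ?_) hg
  intro n
  obtain ⟨z, hz⟩ := hh n
  exact Subring.mem_bot.2 ⟨z, hz.symm⟩

theorem realized (W : WeierstrassCurve ℤ) (hΔ : W.Δ ≠ 0) (hW : W.IsSemistableModel) :
    ∃ (N : ℕ) (_ : NeZero N) (a : ℕ → ℤ),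
      CuspForm.HasIntegralBasis N ∧
      FormalHecke.IsEigensystem
        (fun ℓ => if ℓ ∣ N then 0 else ((chiNegThree ℓ : ℤ) : ℤ)) a ∧
      CuspForm.IsLatticeRealized N a ∧
      (∀ q : ℕ, q.Prime → ¬ q ^ 3 ∣ N) ∧
      ∀ ℓ : ℕ, ℓ.Prime → ¬ ℓ ∣ N → a ℓ = W.apOfModel ℓ := by
  classical
  let L := FA.Theta.badProd W
  have hLpos : 0 < L := FA.Root.badProd_pos W
  have hsq : Squarefree L := FA.Root.squarefree_badProd W
  have : NeZero L := ⟨hLpos.ne'⟩
  obtain ⟨f, hf, hap⟩ := FA.SS.semistableModular W hΔ hW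
  let N := L * L
  have hprime : ∀ ℓ : ℕ, ℓ.Prime → (ℓ ∣ N ↔ ℓ ∣ L) := fun ℓ hℓ =>
    ⟨fun h => (hℓ.dvd_mul.1 h).elim id id, fun h => h.mul_right L⟩
  let x : ℕ → ℤ := fun ℓ => if ℓ ∣ N then 0 else W.apOfModel ℓ
  let e : ℕ → ℤ := fun ℓ => if ℓ ∣ N then 0 else ((chiNegThree ℓ : ℤ) : ℤ)
  let e' : ℕ → ℤ := fun ℓ => if ℓ ∣ N then 0 else (ℓ : ℤ)
  obtain ⟨g, hg, hgc⟩ := exists_depleted hf L.primeFactors fun q hq =>
    ⟨Nat.prime_of_mem_primeFactors hq, Nat.dvd_of_mem_primeFactors hq⟩
  rw [Nat.prod_primeFactors_of_squarefree hsq] at hg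
  have : NeZero N := ⟨Nat.mul_ne_zero hLpos.ne' hLpos.ne'⟩
  let c : ℕ → ℂ := fun n => qCoeff f n
  let d : ℕ → ℂ := depl L.primeFactors c
  have hc0 : c 0 = 0 := FA.Deform.qLin_zero_apply f
  -- the depletion is the formal system for `(x, ℓ)`
  have hd : d = fun n => ((formalSeq x e' n : ℤ) : ℂ) := by
    have hA : IsEigensystem (fun ℓ => ((e' ℓ : ℤ) : ℂ))
        (fun n => ((formalSeq x e' n : ℤ) : ℂ)) := by
      have := isEigensystem_formalSeq (fun ℓ => ((x ℓ : ℤ) : ℂ)) (fun ℓ => ((e' ℓ : ℤ) : ℂ))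
      convert this using 1
      funext n
      exact map_formalSeq (Int.castRingHom ℂ) x e' n
    have hD : IsEigensystem (fun ℓ => ((e' ℓ : ℤ) : ℂ)) d := by
      refine ⟨?_, fun ℓ hℓ n => ?_⟩
      · show (if _ then _ else _) = _
        rw [if_pos fun q hq h => (Nat.prime_of_mem_primeFactors hq).ne_one (Nat.dvd_one.1 h)]
        exact hf.qCoeff_one
      by_cases hℓL : ℓ ∣ L
      · have hmem : ℓ ∈ L.primeFactors := Nat.mem_primeFactors.2 ⟨hℓ, hℓL, hLpos.ne'⟩
        have h1 : ∀ m, d (ℓ * m) = 0 := fun m => if_neg fun h => h ℓ hmem (dvd_mul_right ℓ m)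
        have h2 : d ℓ = 0 := if_neg fun h => h ℓ hmem dvd_rfl
        simp [h1, h2, e', (hprime ℓ hℓ).2 hℓL]
      · have hne : ∀ q ∈ L.primeFactors, ∀ m, q ∣ ℓ * m → q ∣ m := fun q hq m h => by
          have hq' := Nat.prime_of_mem_primeFactors hq
          refine (hq'.dvd_mul.1 h).resolve_left fun h' => hℓL ?_
          exact ((Nat.prime_dvd_prime_iff_eq hq' hℓ).1 h') ▸ Nat.dvd_of_mem_primeFactors hq
        have hiff : ∀ m, (∀ q ∈ L.primeFactors, ¬ q ∣ ℓ * m) ↔ ∀ q ∈ L.primeFactors, ¬ q ∣ m :=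
          fun m => ⟨fun h q hq hm => h q hq (hm.mul_left ℓ),
            fun h q hq hm => h q hq (hne q hq m hm)⟩
        have hℓ1 : ∀ q ∈ L.primeFactors, ¬ q ∣ ℓ := fun q hq h => by
          have hq' := Nat.prime_of_mem_primeFactors hq
          exact hℓL (((Nat.prime_dvd_prime_iff_eq hq' hℓ).1 h) ▸ Nat.dvd_of_mem_primeFactors hq)
        have hrec := FA.JTorsion.qCoeff_rec hf hℓ n
        simp only [FA.Deform.qLin_apply, FA.Deform.cor, mul_comm n ℓ,
          if_neg (show ¬ ℓ ∣ FA.Theta.badProd W from hℓL)] at hrec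
        have he : ((e' ℓ : ℤ) : ℂ) = (ℓ : ℂ) := by simp [e', hprime ℓ hℓ, hℓL]
        show depl _ c (ℓ * n) + _ * (if ℓ ∣ n then depl _ c (n / ℓ) else 0) =
          depl _ c ℓ * depl _ c n
        simp only [he]
        simp only [depl, hiff, if_pos hℓ1]
        by_cases hn : ∀ q ∈ L.primeFactors, ¬ q ∣ n
        · have hdiv : ℓ ∣ n → ∀ q ∈ L.primeFactors, ¬ q ∣ n / ℓ := fun h q hq h' =>
            hn q hq (h'.trans (Nat.div_dvd_of_dvd h))
          rw [if_pos hn, if_pos hn]
          by_cases hℓn : ℓ ∣ n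
          · rw [if_pos hℓn, if_pos (hdiv hℓn)]
            simpa [c, hℓn] using hrec
          · rw [if_neg hℓn, mul_zero, add_zero]
            simpa [c, hℓn] using hrec
        · rw [if_neg hn, if_neg hn, mul_zero, zero_add]
          by_cases hℓn : ℓ ∣ n
          · rw [if_pos hℓn, if_neg, mul_zero]
            intro h
            refine hn ?_
            obtain ⟨m, rfl⟩ := hℓn
            rw [Nat.mul_div_cancel_left _ hℓ.pos] at h
            exact (hiff m).2 h
          · rw [if_neg hℓn, mul_zero]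
    refine eigensystem_unique hD hA ?_ (by simp [formalSeq_zero]) fun p hp => ?_
    · show (if _ then c 0 else 0) = (0 : ℂ)
      split_ifs <;> first | exact hc0 | rfl
    · have hx : formalSeq x e' p = x p := by
        simpa [powVal] using formalSeq_prime_pow x e' hp 1
      rw [hx]
      by_cases hpL : p ∣ L
      · have : d p = 0 := if_neg fun h =>
          h p (Nat.mem_primeFactors.2 ⟨hp, hpL, hLpos.ne'⟩) dvd_rfl
        simp [this, x, (hprime p hp).2 hpL]
      · have hp1 : ∀ q ∈ L.primeFactors, ¬ q ∣ p := fun q hq h => hpL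
          (((Nat.prime_dvd_prime_iff_eq (Nat.prime_of_mem_primeFactors hq) hp).1 h) ▸
            Nat.dvd_of_mem_primeFactors hq)
        have hgood : W.IsGoodPrimeFor p := fun h =>
          hpL ((FA.Root.prime_dvd_badProd_iff hΔ hp).2 h)
        have : d p = c p := if_pos hp1
        simp [this, x, hprime p hp, hpL, c, hap p hp hgood hpL]
  refine ⟨N, inferInstance, formalSeq x e, hasIntegralBasis N, isEigensystem_formalSeq x e, ?_,
    fun q hq h => ?_, fun ℓ hℓ hℓN => ?_⟩
  · -- the congruence modulo `3`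
    let G : CuspForm (Gamma0 N) 2 := toCuspForm' g hg
    have hG : ∀ n, qCoeff G n = ((formalSeq x e' n : ℤ) : ℂ) := fun n =>
      (hgc n).trans (congrFun hd n)
    refine ⟨G, fun n => Subring.mem_bot.2 ⟨_, (hG n).symm⟩, formalSeq x e',
      fun n => (hG n).symm, fun n => ?_⟩
    refine (ZMod.intCast_zmod_eq_zero_iff_dvd _ 3).1 ?_
    rw [Int.cast_sub, Fermat.Agent.S49.bridge_congr,
      show ((formalSeq x e' n : ℤ) : ZMod 3) = Int.castRingHom (ZMod 3) (formalSeq x e' n) from rfl,
      show ((formalSeq x e n : ℤ) : ZMod 3) = Int.castRingHom (ZMod 3) (formalSeq x e n) from rfl,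
      map_formalSeq, map_formalSeq]
    have hee : (fun p => Int.castRingHom (ZMod 3) (e' p)) =
        fun p => Int.castRingHom (ZMod 3) (e p) := by
      funext p
      simp only [e, e', eq_intCast]
      split_ifs
      · rfl
      · rw [Int.cast_natCast]
        exact (Fermat.Agent.S49.chi_congr p).symm
    rw [hee, sub_self]
  · -- no cube divides the level
    have h3 : q ^ 3 ∣ L ^ 2 := by rwa [pow_two]
    have := hsq.natFactorization_le_one q
    have h4 := (Nat.Prime.pow_dvd_iff_le_factorization hq (pow_ne_zero 2 hLpos.ne')).1 h3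
    rw [Nat.factorization_pow, Finsupp.smul_apply, smul_eq_mul] at h4
    omega
  · have hx : formalSeq x e ℓ = x ℓ := by
      simpa [powVal] using formalSeq_prime_pow x e hℓ 1
    rw [hx]
    exact if_neg hℓN

end FA.LTInt

end
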